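import Fermat.Agent.BorsukUlam.Chains
import Mathlib.Analysis.Normed.Module.FiniteDimension
import Mathlib.Topology.MetricSpace.HausdorffDistance

/-!
# The theorem of Borsuk and Ulam

* `exists_zero_of_odd`: an odd continuous map from the octahedral `n`-sphere to `ℝ ^ n` vanishes
  somewhere;
* `octaHemi_small`: the mesh of the subdivided hemispheres tends to zero.

Proof: on a fine symmetric subdivision of a hemisphere the cup product of the coboundaries of the
signs of the `n` coordinates is odd, so some simplex has all coordinates small.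
-/

set_option autoImplicit false

noncomputable section

open Metric Module Set

namespace Fermat.Agent.BorsukUlam

/-- The ambient space of the octahedral sphere. -/
abbrev Octa (n : ℕ) := Fin (n + 1) → ℝ

/-- The octahedral sphere. -/
def octaSphere (n : ℕ) : Set (Octa n) := {x | ∑ i, |x i| = 1}

theorem isCompact_octaSphere (n : ℕ) : IsCompact (octaSphere n) := by
  refine IsCompact.of_isClosed_subset (isCompact_closedBall (0 : Octa n) 1)
    (isClosed_eq (by fun_prop) continuous_const) fun x hx => ?_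
  rw [mem_closedBall_zero_iff, pi_norm_le_iff_of_nonneg zero_le_one]
  intro i
  rw [Real.norm_eq_abs, ← hx]
  exact Finset.single_le_sum (fun j _ => abs_nonneg (x j)) (Finset.mem_univ i)

theorem ne_zero_of_mem {n : ℕ} {x : Octa n} (hx : x ∈ octaSphere n) : x ≠ 0 := by
  rintro rfl
  simp [octaSphere] at hx

/-- The poles. -/
def pole (n k : ℕ) : Octa n := fun i => if (i : ℕ) = k then 1 else 0

/-- The barycentre of a simplex. -/
def bary (n r : ℕ) (σ : Fin (r + 1) → Octa n) : Octa n := ((r : ℝ) + 1)⁻¹ • ∑ i, σ i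

theorem bary_neg (n r : ℕ) (σ : Fin (r + 1) → Octa n) :
    bary n r ((fun x => -x) ∘ σ) = -bary n r σ := by
  simp [bary]

/-- The refined hemispheres of the octahedral sphere. -/
def octaHemi (n m k : ℕ) : List (Fin (k + 1) → Octa n) :=
  refined (fun x => -x) (pole n) (bary n) m k

theorem bary_mem {n r : ℕ} {σ : Fin (r + 1) → Octa n} {C : Set (Octa n)} (hC : Convex ℝ C)
    (hσ : ∀ i, σ i ∈ C) : bary n r σ ∈ C := by
  rw [bary, Finset.smul_sum]
  refine hC.sum_mem (fun _ _ => by positivity) ?_ fun i _ => hσ i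
  simp only [Finset.sum_const, Finset.card_univ, Fintype.card_fin, nsmul_eq_mul]
  push_cast
  field_simp

/-- Subdivision stays in convex sets. -/
theorem subdiv_mem {n : ℕ} : ∀ (r : ℕ) (σ : Fin (r + 1) → Octa n) (C : Set (Octa n)),
    Convex ℝ C → (∀ i, σ i ∈ C) → ∀ τ ∈ subdiv (bary n) r σ, ∀ i, τ i ∈ C := by
  intro r
  induction r with
  | zero =>
    intro σ C _ hσ τ hτ
    rw [subdiv, List.mem_singleton] at hτ
    exact hτ ▸ hσ
  | succ r ih =>
    intro σ C hC hσ τ hτ
    simp only [subdiv, List.mem_map, List.mem_flatten, List.mem_ofFn] at hτ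
    obtain ⟨ρ, ⟨_, ⟨i, rfl⟩, hρ⟩, rfl⟩ := hτ
    intro j
    induction j using Fin.cases with
    | zero => simpa using bary_mem hC hσ
    | succ j => simpa using ih _ C hC (fun t => hσ _) ρ hρ j

theorem norm_bary_sub_le {n r : ℕ} {σ : Fin (r + 1) → Octa n} {D : ℝ}
    (hD : ∀ i j, ‖σ i - σ j‖ ≤ D) (i : Fin (r + 1)) :
    ‖bary n r σ - σ i‖ ≤ r / ((r : ℝ) + 1) * D := by
  have h : bary n r σ - σ i = ((r : ℝ) + 1)⁻¹ • ∑ j, (σ j - σ i) := by
    rw [bary, Finset.sum_sub_distrib, smul_sub, Finset.sum_const, Finset.card_univ,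
      Fintype.card_fin, ← Nat.cast_smul_eq_nsmul ℝ, smul_smul]
    push_cast
    rw [inv_mul_cancel₀ (by positivity), one_smul]
  rw [h, norm_smul, Real.norm_of_nonneg (by positivity), Fin.sum_univ_succAbove _ i, sub_self,
    zero_add, div_eq_inv_mul, mul_assoc]
  gcongr
  refine (norm_sum_le _ _).trans ?_
  calc ∑ j : Fin r, ‖σ (i.succAbove j) - σ i‖ ≤ ∑ _j : Fin r, D :=
        Finset.sum_le_sum fun j _ => hD _ _
    _ = r * D := by simp

/-- Subdivision shrinks simplices. -/
theorem subdiv_small {n : ℕ} : ∀ (r : ℕ) (σ : Fin (r + 1) → Octa n) (D : ℝ),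
    (∀ i j, ‖σ i - σ j‖ ≤ D) →
      ∀ τ ∈ subdiv (bary n) r σ, ∀ i j, ‖τ i - τ j‖ ≤ r / ((r : ℝ) + 1) * D := by
  intro r
  induction r with
  | zero =>
    intro σ D _ τ _ i j
    obtain rfl : i = j := Fin.ext (by omega)
    simp
  | succ r ih =>
    intro σ D hD τ hτ
    have hD0 : 0 ≤ D := (norm_nonneg _).trans (hD 0 0)
    simp only [subdiv, List.mem_map, List.mem_flatten, List.mem_ofFn] at hτ
    obtain ⟨ρ, ⟨_, ⟨a, rfl⟩, hρ⟩, rfl⟩ := hτ
    set c := bary n (r + 1) σ with hc
    have hball : ∀ t, ‖ρ t - c‖ ≤ ((r + 1 : ℕ) : ℝ) / (((r + 1 : ℕ) : ℝ) + 1) * D := by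
      intro t
      rw [← mem_closedBall_iff_norm]
      refine subdiv_mem r _ _ (convex_closedBall _ _) (fun s => ?_) ρ hρ t
      rw [mem_closedBall_iff_norm', Function.comp_apply]
      exact norm_bary_sub_le hD _
    have hface : ∀ s t, ‖ρ s - ρ t‖ ≤ ((r + 1 : ℕ) : ℝ) / (((r + 1 : ℕ) : ℝ) + 1) * D := by
      intro s t
      refine (ih _ D (fun s t => hD _ _) ρ hρ s t).trans (mul_le_mul_of_nonneg_right ?_ hD0)
      push_cast
      rw [div_le_div_iff₀ (by positivity) (by positivity)]
      nlinarith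
    intro i j
    induction i using Fin.cases with
    | zero =>
      induction j using Fin.cases with
      | zero => simp; positivity
      | succ t => simpa [norm_sub_rev] using hball t
    | succ s =>
      induction j using Fin.cases with
      | zero => simpa using hball s
      | succ t => simpa using hface s t

theorem hemi_shape {n : ℕ} : ∀ k ≤ n, ∀ σ ∈ hemi (fun x : Octa n => -x) (pole n) k,
    ∀ j : Fin (k + 1), ∃ (i : Fin (n + 1)) (c : ℝ),
      (i : ℕ) + (j : ℕ) = k ∧ |c| = 1 ∧ σ j = c • pole n i := by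
  intro k
  induction k with
  | zero =>
    intro _ σ hσ j
    rw [hemi, List.mem_singleton] at hσ
    exact ⟨0, 1, by simp [Fin.eq_zero j], by simp, by simp [hσ]⟩
  | succ k ih =>
    intro hk σ hσ j
    simp only [hemi, List.mem_map, List.mem_append] at hσ
    obtain ⟨τ, hτ, rfl⟩ := hσ
    induction j using Fin.cases with
    | zero => exact ⟨⟨k + 1, by omega⟩, 1, by simp, by simp, by simp⟩
    | succ t =>
      rcases hτ with hτ | ⟨ρ, hρ, rfl⟩
      · obtain ⟨i, c, hi, hc, he⟩ := ih (by omega) τ hτ t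
        exact ⟨i, c, by simp only [Fin.val_succ]; omega, hc, by simpa using he⟩
      · obtain ⟨i, c, hi, hc, he⟩ := ih (by omega) ρ hρ t
        exact ⟨i, -c, by simp only [Fin.val_succ]; omega, by simpa using hc, by simp [he]⟩

/-- Every refined simplex lies in a convex piece of the octahedral sphere. -/
theorem octaHemi_convex {n k : ℕ} (hk : k ≤ n) : ∀ m, ∀ σ ∈ octaHemi n m k,
    ∃ C : Set (Octa n), Convex ℝ C ∧ C ⊆ octaSphere n ∧ ∀ j, σ j ∈ C := by
  intro m
  induction m with
  | zero =>
    intro σ hσ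
    choose i c hi hc he using hemi_shape k hk σ hσ
    have hinj : Function.Injective i := fun a b h => Fin.ext (by have := hi a; have := hi b; omega)
    refine ⟨convexHull ℝ (range σ), convex_convexHull ℝ _, ?_,
      fun j => subset_convexHull ℝ _ (mem_range_self j)⟩
    intro x hx
    rw [convexHull_range_eq_exists_affineCombination] at hx
    obtain ⟨s, w, hw0, hw1, rfl⟩ := hx
    rw [Finset.affineCombination_eq_linear_combination s σ w hw1]
    have hval : ∀ a, |(∑ j ∈ s, w j • σ j) a| = ∑ j ∈ s, w j * pole n (i j) a := by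
      intro a
      by_cases ha : ∃ j ∈ s, i j = a
      · obtain ⟨j, hj, rfl⟩ := ha
        rw [Finset.sum_apply, Finset.sum_eq_single_of_mem j hj, Finset.sum_eq_single_of_mem j hj]
        · simp [he, pole, abs_mul, hc, abs_of_nonneg (hw0 j hj)]
        · intro t _ ht
          simp [pole, Fin.val_injective.ne (hinj.ne ht.symm)]
        · intro t _ ht
          simp [he, pole, Fin.val_injective.ne (hinj.ne ht.symm)]
      · push Not at ha
        rw [Finset.sum_apply, Finset.sum_eq_zero, Finset.sum_eq_zero, abs_zero]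
        · intro t ht
          simp [pole, Fin.val_injective.ne (ha t ht).symm]
        · intro t ht
          simp [he, pole, Fin.val_injective.ne (ha t ht).symm]
    change (∑ a, |(∑ j ∈ s, w j • σ j) a|) = 1
    simp only [hval]
    rw [Finset.sum_comm, ← hw1]
    refine Finset.sum_congr rfl fun j _ => ?_
    simp [pole, Fin.val_inj]
  | succ m ih =>
    intro σ hσ
    simp only [octaHemi, refined, List.mem_flatMap] at hσ
    obtain ⟨ρ, hρ, hσ⟩ := hσ
    obtain ⟨C, h1, h2, h3⟩ := ih ρ hρ
    exact ⟨C, h1, h2, subdiv_mem k ρ C h1 h3 σ hσ⟩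

theorem octaHemi_mem {n k : ℕ} (hk : k ≤ n) {m : ℕ} {σ : Fin (k + 1) → Octa n}
    (hσ : σ ∈ octaHemi n m k) (j : Fin (k + 1)) : σ j ∈ octaSphere n := by
  obtain ⟨C, -, h2, h3⟩ := octaHemi_convex hk m σ hσ
  exact h2 (h3 j)

theorem norm_le_one_of_mem {n : ℕ} {x : Octa n} (hx : x ∈ octaSphere n) : ‖x‖ ≤ 1 := by
  rw [pi_norm_le_iff_of_nonneg zero_le_one]
  intro i
  rw [Real.norm_eq_abs, ← hx]
  exact Finset.single_le_sum (fun j _ => abs_nonneg (x j)) (Finset.mem_univ i)

/-- The mesh of the `m`th subdivision. -/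
theorem octaHemi_small (n : ℕ) : ∀ m, ∀ σ ∈ octaHemi n m n, ∀ i j,
    ‖σ i - σ j‖ ≤ ((n : ℝ) / (n + 1)) ^ m * 2 := by
  intro m
  induction m with
  | zero =>
    intro σ hσ i j
    have hi := norm_le_one_of_mem (octaHemi_mem le_rfl hσ i)
    have hj := norm_le_one_of_mem (octaHemi_mem le_rfl hσ j)
    linarith [norm_sub_le (σ i) (σ j), pow_zero ((n : ℝ) / (n + 1))]
  | succ m ih =>
    intro σ hσ i j
    simp only [octaHemi, refined, List.mem_flatMap] at hσ
    obtain ⟨ρ, hρ, hσ⟩ := hσ
    rw [pow_succ', mul_assoc]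
    exact subdiv_small n ρ _ (ih ρ hρ) σ hσ i j

/-- **Borsuk–Ulam on the octahedral sphere**: an odd map to `ℝ ^ n` has a zero. -/
theorem exists_zero_of_odd {n : ℕ} {g : Octa n → Fin n → ℝ}
    (hg : ContinuousOn g (octaSphere n)) (hodd : ∀ x ∈ octaSphere n, g (-x) = -g x) :
    ∃ x ∈ octaSphere n, g x = 0 := by
  classical
  have hne : (octaSphere n).Nonempty := ⟨pole n 0, by simp [octaSphere, pole, apply_ite abs]⟩
  obtain ⟨x₀, hx₀, hmin⟩ :=
    (isCompact_octaSphere n).exists_isMinOn hne (continuous_norm.comp_continuousOn hg)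
  by_contra hcon
  push Not at hcon
  have hε : 0 < ‖g x₀‖ := norm_pos_iff.2 (hcon x₀ hx₀)
  set ε := ‖g x₀‖ / 2 with hεdef
  obtain ⟨δ, hδ, huc⟩ := Metric.uniformContinuousOn_iff.1
    ((isCompact_octaSphere n).uniformContinuousOn_of_continuous hg) ε (by positivity)
  obtain ⟨m, hm⟩ := exists_pow_lt_of_lt_one (half_pos hδ)
    (show (n : ℝ) / (n + 1) < 1 by rw [div_lt_one (by positivity)]; linarith)
  -- signs with a symmetric choice at zero
  let s : Fin n → Octa n → ZMod 2 := fun a x =>
    if 0 < g x a then 1 else if g x a < 0 then 0 else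
      if WellOrderingRel x (-x) then 1 else 0
  have hs : ∀ a x, x ∈ octaSphere n → s a (-x) = 1 + s a x := by
    intro a x hx
    have hga : g (-x) a = -g x a := by rw [hodd x hx, Pi.neg_apply]
    simp only [s, hga, neg_pos, neg_lt_zero, neg_neg]
    rcases lt_trichotomy (g x a) 0 with h | h | h
    · simp [h, h.not_gt]
    · have hxx : x ≠ -x := fun he => ne_zero_of_mem hx (self_eq_neg.1 he)
      simp only [h, lt_irrefl, if_false]
      rcases trichotomous_of WellOrderingRel x (-x) with h1 | h1 | h1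
      · rw [if_pos h1, if_neg (asymm h1)]; decide
      · exact absurd h1 hxx
      · rw [if_pos h1, if_neg (asymm h1), add_zero]
    · simp [h, h.not_gt, CharTwo.add_self_eq_zero]
  have hcount : chainEval (octaHemi n m n) (signCup n s) = 1 :=
    chainEval_signCup (P := fun x => x ∈ octaSphere n) neg_involutive (pole n) (bary_neg n) m
      (fun k hk σ hσ j => octaHemi_mem hk.le hσ j) n le_rfl s hs
  obtain ⟨σ, hσ, hne0⟩ := exists_of_chainEval _ (hcount ▸ one_ne_zero)
  have hchange := signCup_factors n s σ hne0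
  have hmem := octaHemi_mem le_rfl hσ
  have hclose : ∀ i j a, |g (σ i) a - g (σ j) a| < ε := by
    intro i j a
    have hd : dist (σ i) (σ j) < δ := by
      rw [dist_eq_norm]
      linarith [octaHemi_small n m σ hσ i j]
    have := (dist_le_pi_dist (g (σ i)) (g (σ j)) a).trans_lt (huc _ (hmem i) _ (hmem j) hd)
    rwa [Real.dist_eq] at this
  have hsmall : ∀ a, |g (σ 0) a| < 2 * ε := by
    intro a
    have h1 := abs_lt.1 (hclose a.castSucc a.succ a)
    have h2 := abs_lt.1 (hclose 0 a.castSucc a)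
    have hdiff := hchange a
    rw [abs_lt]
    by_cases hp : ε ≤ g (σ a.castSucc) a
    · refine absurd ?_ hdiff
      simp only [s, show 0 < g (σ a.castSucc) a by linarith,
        show 0 < g (σ a.succ) a by linarith, if_true, CharTwo.add_self_eq_zero]
    by_cases hn : g (σ a.castSucc) a ≤ -ε
    · refine absurd ?_ hdiff
      have hpp : g (σ a.castSucc) a < 0 := by linarith
      have hqq : g (σ a.succ) a < 0 := by linarith
      simp only [s, hpp.not_gt, hqq.not_gt, hpp, hqq, if_true, if_false, add_zero]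
    constructor <;> linarith
  have hbound : ‖g (σ 0)‖ < 2 * ε :=
    (pi_norm_lt_iff (by positivity)).2 fun a => by rw [Real.norm_eq_abs]; exact hsmall a
  have := hmin (hmem 0)
  simp only [Function.comp_apply, mem_ofPred_eq] at this
  linarith

end Fermat.Agent.BorsukUlam
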