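import Mathlib.Algebra.BigOperators.Fin
import Mathlib.Algebra.Field.ZMod
import Mathlib.Data.Fin.Tuple.Basic
import Mathlib.Tactic.Ring

/-!
# Symmetric mod 2 chains

Singular simplices are tuples of points, a chain is a list of them, evaluated on a cochain mod 2.
For an involution `A` and points `e k`, the hemispheres `hemi A e k` satisfy
`∂ h (k+1) = h k + A (h k)`, and so do all their barycentric subdivisions.

For odd sign functions `s i`, the cup product `∏ δ (s i)` evaluates to one on the top hemisphere:
this is the whole combinatorics behind the theorem of Borsuk and Ulam.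
-/

set_option autoImplicit false

namespace Fermat.Agent.BorsukUlam

variable {X : Type*}

/-- The coboundary of a cochain mod 2. -/
def coboundary {r : ℕ} (φ : (Fin r → X) → ZMod 2) (σ : Fin (r + 1) → X) : ZMod 2 :=
  ∑ i : Fin (r + 1), φ (σ ∘ i.succAbove)

/-- The value of a cochain on a chain. -/
def chainEval {r : ℕ} (l : List (Fin r → X)) (φ : (Fin r → X) → ZMod 2) : ZMod 2 :=
  (l.map φ).sum

theorem chainEval_append {r : ℕ} (l l' : List (Fin r → X)) (φ : (Fin r → X) → ZMod 2) :
    chainEval (l ++ l') φ = chainEval l φ + chainEval l' φ := by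
  simp [chainEval]

theorem chainEval_map {r t : ℕ} (l : List (Fin r → X)) (f : (Fin r → X) → Fin t → X)
    (φ : (Fin t → X) → ZMod 2) : chainEval (l.map f) φ = chainEval l fun σ => φ (f σ) := by
  simp [chainEval, Function.comp_def]

theorem chainEval_flatMap {r t : ℕ} (l : List (Fin r → X)) (f : (Fin r → X) → List (Fin t → X))
    (φ : (Fin t → X) → ZMod 2) :
    chainEval (l.flatMap f) φ = chainEval l fun σ => chainEval (f σ) φ := by
  induction l with
  | nil => simp [chainEval]
  | cons a l ih =>
    rw [List.flatMap_cons, chainEval_append, ih]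
    simp [chainEval]

theorem chainEval_add {r : ℕ} (l : List (Fin r → X)) (φ ψ : (Fin r → X) → ZMod 2) :
    chainEval l (fun σ => φ σ + ψ σ) = chainEval l φ + chainEval l ψ :=
  List.sum_map_add

theorem chainEval_congr {r : ℕ} (l : List (Fin r → X)) {φ ψ : (Fin r → X) → ZMod 2}
    (h : ∀ σ ∈ l, φ σ = ψ σ) : chainEval l φ = chainEval l ψ := by
  rw [chainEval, chainEval, List.map_congr_left h]

theorem exists_of_chainEval {r : ℕ} (l : List (Fin r → X)) {φ : (Fin r → X) → ZMod 2}
    (h : chainEval l φ ≠ 0) : ∃ σ ∈ l, φ σ ≠ 0 := by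
  by_contra hc
  push Not at hc
  exact h ((chainEval_congr l hc).trans (by simp [chainEval]))

theorem add_self_eq_zero' (x : ZMod 2) : x + x = 0 := CharTwo.add_self_eq_zero x

/-- The coboundary on a cone. -/
theorem coboundary_cons {r : ℕ} (φ : (Fin (r + 1) → X) → ZMod 2) (a : X)
    (τ : Fin (r + 1) → X) :
    coboundary φ (Fin.cons a τ) = φ τ + coboundary (fun ρ => φ (Fin.cons a ρ)) τ := by
  rw [coboundary, Fin.sum_univ_succ, coboundary]
  congr 1
  · refine Finset.sum_congr rfl fun i _ => congrArg φ ?_
    ext j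
    induction j using Fin.cases with
    | zero => simp
    | succ j => simp [Fin.succ_succAbove_succ]

/-- The coboundary squares to zero. -/
theorem coboundary_coboundary {r : ℕ} (φ : (Fin r → X) → ZMod 2) (σ : Fin (r + 2) → X) :
    coboundary (coboundary φ) σ = 0 := by
  induction r with
  | zero =>
    have h : ∀ ρ : Fin 0 → X, φ ρ = φ Fin.elim0 := fun ρ => congrArg φ (Subsingleton.elim _ _)
    simp [coboundary, h, CharTwo.two_eq_zero]
  | succ r ih =>
    rw [← Fin.cons_self_tail σ, coboundary_cons]
    have h : (fun ρ => coboundary φ (Fin.cons (σ 0) ρ)) =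
        fun ρ : Fin (r + 1) → X => φ ρ + coboundary (fun θ => φ (Fin.cons (σ 0) θ)) ρ :=
      funext (coboundary_cons φ (σ 0))
    rw [h]
    have h2 := ih (fun θ => φ (Fin.cons (σ 0) θ)) (Fin.tail σ)
    simp only [coboundary, Finset.sum_add_distrib] at h2 ⊢
    rw [h2, add_zero]
    exact add_self_eq_zero' _

/-- On a one-point simplex the coboundary is the value on the empty simplex. -/
theorem coboundary_zero (φ : (Fin 0 → X) → ZMod 2) (σ : Fin 1 → X) :
    coboundary φ σ = φ Fin.elim0 := by
  simp [coboundary, Subsingleton.elim _ (Fin.elim0 : Fin 0 → X)]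

/-! ## Hemispheres -/

/-- The octahedral hemispheres of an involution `A` with poles `e`. -/
def hemi (A : X → X) (e : ℕ → X) : (k : ℕ) → List (Fin (k + 1) → X)
  | 0 => [fun _ => e 0]
  | k + 1 => (hemi A e k ++ (hemi A e k).map fun σ => A ∘ σ).map fun σ => Fin.cons (e (k + 1)) σ

/-- The boundary of a hemisphere is the sphere below it. -/
theorem hemi_boundary {A : X → X} (hA : Function.Involutive A) (e : ℕ → X) (k : ℕ)
    (φ : (Fin (k + 1) → X) → ZMod 2) :
    chainEval (hemi A e (k + 1)) (coboundary φ) =
      chainEval (hemi A e k) φ + chainEval (hemi A e k) fun σ => φ (A ∘ σ) := by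
  induction k with
  | zero =>
    simp only [hemi, chainEval_map]
    rw [chainEval_congr _ fun σ _ => coboundary_cons φ (e 1) σ, chainEval_add]
    simp [chainEval, coboundary_zero, add_self_eq_zero', Function.comp_def]
  | succ k ih =>
    conv_lhs => rw [hemi, chainEval_map]
    rw [chainEval_congr _ fun σ _ => coboundary_cons φ (e (k + 2)) σ, chainEval_add,
      chainEval_append, chainEval_map, chainEval_append, chainEval_map]
    set ψ := fun ρ : Fin (k + 1) → X => φ (Fin.cons (e (k + 2)) ρ) with hψ
    have hcomm : ∀ σ : Fin (k + 2) → X,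
        coboundary ψ (A ∘ σ) = coboundary (fun ρ => ψ (A ∘ ρ)) σ := fun σ => rfl
    rw [chainEval_congr _ fun σ _ => hcomm σ, ih, ih]
    have hAA : ∀ ρ : Fin (k + 1) → X, A ∘ A ∘ ρ = ρ := fun ρ => funext fun i => hA _
    simp only [hAA]
    rw [add_comm (chainEval (hemi A e k) fun σ => ψ (A ∘ σ)), add_self_eq_zero', add_zero]

/-! ## Barycentric subdivision -/

/-- The barycentric subdivision of a simplex, given the centres `b`. -/
def subdiv (b : ∀ r : ℕ, (Fin (r + 1) → X) → X) : (r : ℕ) → (Fin (r + 1) → X) →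
    List (Fin (r + 1) → X)
  | 0, σ => [σ]
  | r + 1, σ => (List.ofFn fun i : Fin (r + 2) => subdiv b r (σ ∘ i.succAbove)).flatten.map
      fun τ => Fin.cons (b (r + 1) σ) τ

theorem chainEval_flatten_ofFn {r t : ℕ} (f : Fin t → List (Fin r → X))
    (φ : (Fin r → X) → ZMod 2) :
    chainEval (List.ofFn f).flatten φ = ∑ i, chainEval (f i) φ := by
  simp [chainEval, List.map_flatten, List.sum_flatten, List.sum_ofFn, Function.comp_def]

/-- Subdivision commutes with the boundary. -/
theorem subdiv_boundary (b : ∀ r : ℕ, (Fin (r + 1) → X) → X) (r : ℕ)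
    (φ : (Fin (r + 1) → X) → ZMod 2) (σ : Fin (r + 2) → X) :
    chainEval (subdiv b (r + 1) σ) (coboundary φ) =
      coboundary (fun ρ => chainEval (subdiv b r ρ) φ) σ := by
  induction r with
  | zero =>
    rw [subdiv, chainEval_map, chainEval_congr _ fun τ _ => coboundary_cons φ (b 1 σ) τ,
      chainEval_add, chainEval_flatten_ofFn, chainEval_flatten_ofFn]
    simp [coboundary, subdiv, chainEval, Fin.sum_univ_two, CharTwo.two_eq_zero,
      Subsingleton.elim _ (Fin.elim0 : Fin 0 → X)]
  | succ r ih =>
    conv_lhs => rw [subdiv, chainEval_map]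
    rw [chainEval_congr _ fun τ _ => coboundary_cons φ (b (r + 2) σ) τ,
      chainEval_add, chainEval_flatten_ofFn, chainEval_flatten_ofFn]
    simp only [ih]
    have h := coboundary_coboundary
      (fun ρ => chainEval (subdiv b r ρ) fun θ => φ (Fin.cons (b (r + 2) σ) θ)) σ
    unfold coboundary at h ⊢
    rw [h, add_zero]

theorem subdiv_comp {b : ∀ r : ℕ, (Fin (r + 1) → X) → X} {A : X → X}
    (hb : ∀ r σ, b r (A ∘ σ) = A (b r σ)) (r : ℕ) (σ : Fin (r + 1) → X) :
    subdiv b r (A ∘ σ) = (subdiv b r σ).map fun τ => A ∘ τ := by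
  induction r with
  | zero => rfl
  | succ r ih =>
    have hi : (fun i : Fin (r + 2) => subdiv b r ((A ∘ σ) ∘ i.succAbove)) =
        fun i => (subdiv b r (σ ∘ i.succAbove)).map fun τ => A ∘ τ :=
      funext fun i => ih (σ ∘ i.succAbove)
    rw [subdiv, subdiv, hb, hi, List.map_map, List.map_flatten, List.map_flatten, List.map_ofFn,
      List.map_ofFn]
    refine congrArg _ (congrArg _ (funext fun i => ?_))
    simp only [Function.comp_apply, List.map_map]
    refine List.map_congr_left fun τ _ => funext fun j => ?_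
    induction j using Fin.cases with
    | zero => simp
    | succ j => simp

/-- The `m`th subdivision of the hemispheres. -/
def refined (A : X → X) (e : ℕ → X) (b : ∀ r : ℕ, (Fin (r + 1) → X) → X) :
    ℕ → (k : ℕ) → List (Fin (k + 1) → X)
  | 0, k => hemi A e k
  | m + 1, k => (refined A e b m k).flatMap (subdiv b k)

theorem refined_boundary {A : X → X} (hA : Function.Involutive A) (e : ℕ → X)
    {b : ∀ r : ℕ, (Fin (r + 1) → X) → X} (hb : ∀ r σ, b r (A ∘ σ) = A (b r σ)) (m k : ℕ)
    (φ : (Fin (k + 1) → X) → ZMod 2) :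
    chainEval (refined A e b m (k + 1)) (coboundary φ) =
      chainEval (refined A e b m k) φ + chainEval (refined A e b m k) fun σ => φ (A ∘ σ) := by
  induction m generalizing φ with
  | zero => exact hemi_boundary hA e k φ
  | succ m ih =>
    simp only [refined, chainEval_flatMap]
    rw [chainEval_congr _ fun σ _ => subdiv_boundary b k φ σ, ih]
    simp only [subdiv_comp hb, chainEval_map]

theorem refined_zero (A : X → X) (e : ℕ → X) (b : ∀ r : ℕ, (Fin (r + 1) → X) → X) (m : ℕ) :
    refined A e b m 0 = [fun _ => e 0] := by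
  induction m with
  | zero => rfl
  | succ m ih => simp [refined, ih, subdiv]

/-! ## Cup products of sign functions -/

/-- The cup product of the coboundaries of `s 0, …, s (k - 1)`. -/
def signCup : (k : ℕ) → (Fin k → X → ZMod 2) → (Fin (k + 1) → X) → ZMod 2
  | 0, _, _ => 1
  | k + 1, s, σ => (s 0 (σ 0) + s 0 (σ 1)) * signCup k (Fin.tail s) (Fin.tail σ)

/-- A primitive of `signCup`. -/
def signPrim {k : ℕ} (s : Fin (k + 1) → X → ZMod 2) (σ : Fin (k + 1) → X) : ZMod 2 :=
  s 0 (σ 0) * signCup k (Fin.tail s) σ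

theorem signCup_eq_coboundary : ∀ (k : ℕ) (s : Fin (k + 1) → X → ZMod 2)
    (σ : Fin (k + 2) → X), coboundary (signPrim s) σ = signCup (k + 1) s σ := by
  intro k
  induction k with
  | zero =>
    intro s σ
    simp [coboundary, Fin.sum_univ_two, signPrim, signCup, add_comm]
  | succ k ih =>
    intro s σ
    have h0 : coboundary (signCup (k + 1) (Fin.tail s)) σ = 0 := by
      rw [← funext (ih (Fin.tail s))]
      exact coboundary_coboundary _ _
    rw [← Fin.cons_self_tail σ, coboundary_cons] at h0
    rw [← Fin.cons_self_tail σ, coboundary_cons]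
    have h1 : coboundary (fun ρ => signPrim s (Fin.cons (σ 0) ρ)) (Fin.tail σ) =
        s 0 (σ 0) * coboundary (fun ρ => signCup (k + 1) (Fin.tail s) (Fin.cons (σ 0) ρ))
          (Fin.tail σ) := by
      simp [coboundary, signPrim, Finset.mul_sum]
    rw [h1, CharTwo.add_eq_zero.1 h0 |>.symm]
    conv_rhs => rw [signCup]
    rw [signPrim, Fin.cons_zero, Fin.cons_one, Fin.tail_cons]
    ring

theorem signCup_comp {A : X → X} : ∀ (k : ℕ) (s : Fin k → X → ZMod 2) (σ : Fin (k + 1) → X),
    (∀ i j, s i (A (σ j)) = 1 + s i (σ j)) → signCup k s (A ∘ σ) = signCup k s σ := by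
  intro k
  induction k with
  | zero => intros; rfl
  | succ k ih =>
    intro s σ h
    rw [signCup, signCup, show Fin.tail (A ∘ σ) = A ∘ Fin.tail σ from rfl,
      ih (Fin.tail s) (Fin.tail σ) (fun i j => h i.succ j.succ), Function.comp_apply,
      Function.comp_apply, h, h, add_add_add_comm, add_self_eq_zero', zero_add]

theorem signCup_factors : ∀ (k : ℕ) (s : Fin k → X → ZMod 2) (σ : Fin (k + 1) → X),
    signCup k s σ ≠ 0 → ∀ a : Fin k, s a (σ a.castSucc) + s a (σ a.succ) ≠ 0 := by
  intro k
  induction k with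
  | zero => exact fun _ _ _ a => a.elim0
  | succ k ih =>
    intro s σ h a
    rw [signCup] at h
    induction a using Fin.cases with
    | zero => simpa using left_ne_zero_of_mul h
    | succ a => exact ih (Fin.tail s) (Fin.tail σ) (right_ne_zero_of_mul h) a

/-- **The parity lemma**: the cup product of odd sign functions is one on the hemisphere. -/
theorem chainEval_signCup {A : X → X} (hA : Function.Involutive A) (e : ℕ → X)
    {b : ∀ r : ℕ, (Fin (r + 1) → X) → X} (hb : ∀ r σ, b r (A ∘ σ) = A (b r σ)) (m : ℕ)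
    {P : X → Prop} {n : ℕ}
    (hP : ∀ k < n, ∀ σ ∈ refined A e b m k, ∀ j, P (σ j)) :
    ∀ k ≤ n, ∀ s : Fin k → X → ZMod 2, (∀ i x, P x → s i (A x) = 1 + s i x) →
      chainEval (refined A e b m k) (signCup k s) = 1 := by
  intro k
  induction k with
  | zero => intro _ s _; simp [refined_zero, chainEval, signCup]
  | succ k ih =>
    intro hk s hs
    rw [← chainEval_congr _ fun σ _ => signCup_eq_coboundary k s σ, refined_boundary hA e hb,
      ← chainEval_add]
    rw [← ih (Nat.le_of_succ_le hk) (Fin.tail s) fun i => hs i.succ]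
    refine chainEval_congr _ fun σ hσ => ?_
    have hp := hP k hk σ hσ
    rw [signPrim, signPrim, signCup_comp k (Fin.tail s) σ fun i j => hs i.succ _ (hp j),
      Function.comp_apply, hs 0 _ (hp 0), ← add_mul,
      add_left_comm, add_self_eq_zero',
      add_zero, one_mul]

end Fermat.Agent.BorsukUlam
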