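import Fermat.Agent.BorsukUlam.Sphere
import Mathlib.Analysis.InnerProductSpace.PiL2
import Mathlib.MeasureTheory.Integral.DominatedConvergence
import Mathlib.MeasureTheory.Constructions.BorelSpace.Basic
import Mathlib.MeasureTheory.Measure.Lebesgue.EqHaar

/-!
# The ham sandwich theorem

Finitely many finite measures on a Euclidean space, no more than its dimension and none charging
a hyperplane, are bisected by one hyperplane (Banach, Stone and Tukey).
-/

set_option autoImplicit false

noncomputable section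

open Metric Module Set MeasureTheory Filter
open scoped InnerProductSpace Topology

namespace Fermat.Agent.BorsukUlam

variable {E : Type*} [NormedAddCommGroup E] [InnerProductSpace ℝ E] [FiniteDimensional ℝ E]
  [MeasurableSpace E] [BorelSpace E]

/-- The mass of the half space cut by `(u, t)`. -/
def halfMass (μ : Measure E) (p : E × ℝ) : ℝ := μ.real {x | p.2 < ⟪p.1, x⟫_ℝ}

omit [FiniteDimensional ℝ E] in
theorem continuousOn_halfMass (μ : Measure E) [IsFiniteMeasure μ]
    (hμ : ∀ (u : E) (t : ℝ), u ≠ 0 → μ {x | ⟪u, x⟫_ℝ = t} = 0) :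
    ContinuousOn (halfMass μ) (sphere 0 1) := by
  intro p hp
  have hfun : halfMass μ = fun q : E × ℝ => ∫ x, {x | q.2 < ⟪q.1, x⟫_ℝ}.indicator 1 x ∂μ :=
    funext fun q => (integral_indicator_one
      (measurableSet_lt measurable_const (continuous_const.inner continuous_id).measurable)).symm
  rw [hfun]
  refine ContinuousAt.continuousWithinAt (continuousAt_of_dominated (bound := fun _ => 1) ?_ ?_
    (integrable_const _) ?_)
  · exact Eventually.of_forall fun q => (measurable_one.indicator
      (measurableSet_lt measurable_const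
        (continuous_const.inner continuous_id).measurable)).aestronglyMeasurable
  · refine Eventually.of_forall fun q => Eventually.of_forall fun x => ?_
    by_cases hx : x ∈ {x | q.2 < ⟪q.1, x⟫_ℝ} <;> simp [hx]
  · have hoff : ∀ x, ⟪p.1, x⟫_ℝ ≠ p.2 →
        ContinuousAt (fun q : E × ℝ => {x | q.2 < ⟪q.1, x⟫_ℝ}.indicator (1 : E → ℝ) x) p := by
      intro x hx
      have hF : Continuous fun q : E × ℝ => ⟪q.1, x⟫_ℝ - q.2 := by fun_prop
      rcases lt_or_gt_of_ne (sub_ne_zero.2 hx) with h | h
      · refine (continuousAt_const (y := (0 : ℝ))).congr ?_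
        filter_upwards [hF.continuousAt.eventually (gt_mem_nhds h)] with q hq
        rw [indicator_of_notMem]
        simp only [mem_ofPred_eq, not_lt]
        linarith
      · refine (continuousAt_const (y := (1 : ℝ))).congr ?_
        filter_upwards [hF.continuousAt.eventually (lt_mem_nhds h)] with q hq
        rw [indicator_of_mem]
        · rfl
        · simp only [mem_ofPred_eq]
          linarith
    by_cases hu : p.1 = 0
    · refine Eventually.of_forall fun x => hoff x fun h => ?_
      rw [hu, inner_zero_left] at h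
      rw [mem_sphere_zero_iff_norm, show p = 0 from Prod.ext hu h.symm, norm_zero] at hp
      exact zero_ne_one hp
    · refine ((measure_eq_zero_iff_ae_notMem).1 (hμ p.1 p.2 hu)).mono fun x hx => hoff x ?_
      simpa using hx

/-- **The ham sandwich theorem.** -/
theorem ham_sandwich {n : ℕ} (hn : n ≤ finrank ℝ E) (hE : 0 < finrank ℝ E)
    (μ : Fin n → Measure E) [∀ i, IsFiniteMeasure (μ i)]
    (hμ : ∀ i (u : E) (t : ℝ), u ≠ 0 → μ i {x | ⟪u, x⟫_ℝ = t} = 0) :
    ∃ u : E, u ≠ 0 ∧ ∃ t : ℝ, ∀ i, μ i {x | t < ⟪u, x⟫_ℝ} = μ i {x | ⟪u, x⟫_ℝ < t} := by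
  let f : E × ℝ → Fin n → ℝ := fun p i => halfMass (μ i) p
  have hlt : finrank ℝ (Fin n → ℝ) < finrank ℝ (E × ℝ) := by
    rw [finrank_fintype_fun_eq_card, Fintype.card_fin, Module.finrank_prod, Module.finrank_self]
    omega
  obtain ⟨⟨u, t⟩, hp, he⟩ :=
    borsuk_ulam hlt (continuousOn_pi.2 fun i => continuousOn_halfMass (μ i) (hμ i))
      (f := f)
  have hsame : ∀ i, μ i {x | t < ⟪u, x⟫_ℝ} = μ i {x | ⟪u, x⟫_ℝ < t} := by
    intro i
    have h := congrFun he i
    simp only [f, halfMass, Prod.neg_mk, inner_neg_left, neg_lt_neg_iff] at h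
    exact (measureReal_eq_measureReal_iff (measure_ne_top _ _) (measure_ne_top _ _)).1 h
  by_cases hu : u = 0
  · -- then every measure is zero
    subst hu
    have ht : t ≠ 0 := by
      rintro rfl
      simp at hp
    have hzero : ∀ i, μ i = 0 := by
      intro i
      have h := hsame i
      rcases ht.lt_or_gt with h' | h'
      · refine Measure.measure_univ_eq_zero.1 ?_
        simpa [inner_zero_left, h', h'.not_gt] using h
      · refine Measure.measure_univ_eq_zero.1 ?_
        simpa [inner_zero_left, h', h'.not_gt, eq_comm] using h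
    have : Nontrivial E := Module.finrank_pos_iff.1 hE
    obtain ⟨v, hv⟩ := exists_ne (0 : E)
    exact ⟨v, hv, 0, fun i => by simp [hzero i]⟩
  · exact ⟨u, hu, t, hsame⟩

/-- Lebesgue measure charges no hyperplane. -/
theorem volume_hyperplane (μ : Measure E) [μ.IsAddHaarMeasure] (u : E) (t : ℝ) (hu : u ≠ 0) :
    μ {x | ⟪u, x⟫_ℝ = t} = 0 := by
  have huu : ⟪u, u⟫_ℝ ≠ 0 := inner_self_ne_zero.2 hu
  have hset : {x : E | ⟪u, x⟫_ℝ = t} =
      (fun x => -((t / ⟪u, u⟫_ℝ) • u) + x) ⁻¹' ((ℝ ∙ u)ᗮ : Submodule ℝ E) := by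
    ext x
    simp only [Set.mem_ofPred_eq, Set.mem_preimage, SetLike.mem_coe,
      Submodule.mem_orthogonal_singleton_iff_inner_right, inner_add_right, inner_neg_right,
      inner_smul_right]
    rw [div_mul_cancel₀ _ huu]
    constructor <;> intro h <;> linarith
  rw [hset, measure_preimage_add]
  refine Measure.addHaar_submodule μ _ fun htop => hu ?_
  have h := htop ▸ (Submodule.mem_top : u ∈ (⊤ : Submodule ℝ E))
  exact inner_self_eq_zero.1 (Submodule.mem_orthogonal_singleton_iff_inner_right.1 h)

/-- **The ham sandwich theorem for bodies**: one hyperplane halves the volumes of as many sets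
of finite volume as the dimension. -/
theorem ham_sandwich_volume (hE : 0 < finrank ℝ E) (μ : Measure E) [μ.IsAddHaarMeasure]
    (A : Fin (finrank ℝ E) → Set E) (hA : ∀ i, μ (A i) ≠ ⊤) :
    ∃ u : E, u ≠ 0 ∧ ∃ t : ℝ,
      ∀ i, μ ({x | t < ⟪u, x⟫_ℝ} ∩ A i) = μ ({x | ⟪u, x⟫_ℝ < t} ∩ A i) := by
  have : ∀ i, IsFiniteMeasure (μ.restrict (A i)) := fun i =>
    isFiniteMeasure_restrict.2 (hA i)
  obtain ⟨u, hu, t, h⟩ := ham_sandwich le_rfl hE (fun i => μ.restrict (A i))
    fun i u t hu => nonpos_iff_eq_zero.1
      ((Measure.restrict_apply_le _ _).trans_eq (volume_hyperplane μ u t hu))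
  refine ⟨u, hu, t, fun i => ?_⟩
  have hc : Continuous fun x => ⟪u, x⟫_ℝ := continuous_const.inner continuous_id
  have h1 := h i
  rwa [Measure.restrict_apply (measurableSet_lt measurable_const hc.measurable),
    Measure.restrict_apply (measurableSet_lt hc.measurable measurable_const)] at h1

end Fermat.Agent.BorsukUlam
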