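import Fermat.Agent.BorsukUlam.Basic
import Mathlib.LinearAlgebra.Dimension.Finrank
import Mathlib.Analysis.InnerProductSpace.EuclideanDist

/-!
# Borsuk–Ulam on spheres

The theorem for a normed space and a smaller target, and what follows from it: no odd map to a
smaller sphere, no embedding of a sphere in its dimension, invariance of dimension, the covering
theorem of Lusternik and Schnirelmann, and a metric form of Tucker's lemma.
-/

set_option autoImplicit false

noncomputable section

open Metric Module Set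

namespace Fermat.Agent.BorsukUlam

variable {V W : Type*} [NormedAddCommGroup V] [NormedSpace ℝ V] [FiniteDimensional ℝ V]
  [NormedAddCommGroup W] [NormedSpace ℝ W] [FiniteDimensional ℝ W]

/-- **The theorem of Borsuk and Ulam.** -/
theorem borsuk_ulam (h : finrank ℝ W < finrank ℝ V) {f : V → W}
    (hf : ContinuousOn f (sphere 0 1)) : ∃ x ∈ sphere (0 : V) 1, f x = f (-x) := by
  set n := finrank ℝ W
  let v : Fin (n + 1) → V := finBasis ℝ V ∘ Fin.castLE h
  let j : Octa n →ₗ[ℝ] V := Fintype.linearCombination ℝ v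
  have hj : Function.Injective j := linearIndependent_iff_injective_fintypeLinearCombination.1
    ((finBasis ℝ V).linearIndependent.comp _ (Fin.castLE_injective h))
  let e : W ≃L[ℝ] (Fin n → ℝ) := (finBasis ℝ W).equivFunL
  let u : Octa n → V := fun y => ‖j y‖⁻¹ • j y
  have hpos : ∀ y ∈ octaSphere n, ‖j y‖ ≠ 0 := fun y hy =>
    norm_ne_zero_iff.2 ((map_ne_zero_iff j hj).2 (ne_zero_of_mem hy))
  have hu : MapsTo u (octaSphere n) (sphere 0 1) := fun y hy => by
    rw [mem_sphere_zero_iff_norm]
    simp only [u, norm_smul, norm_inv, norm_norm]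
    exact inv_mul_cancel₀ (hpos y hy)
  have hu' : MapsTo (fun y => -u y) (octaSphere n) (sphere 0 1) := fun y hy => by
    simpa using hu hy
  have hjc : Continuous j := j.continuous_of_finiteDimensional
  have huc : ContinuousOn u (octaSphere n) :=
    (hjc.norm.continuousOn.inv₀ hpos).smul hjc.continuousOn
  have huneg : ∀ y, u (-y) = -u y := fun y => by simp [u]
  obtain ⟨y, hy, hzero⟩ := exists_zero_of_odd (g := fun y => e (f (u y) - f (-u y)))
    (e.continuous.comp_continuousOn ((hf.comp huc hu).sub (hf.comp huc.neg hu')))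
    (fun y _ => by rw [huneg, neg_neg, ← map_neg, neg_sub])
  exact ⟨u y, hu hy, sub_eq_zero.1 (e.map_eq_zero_iff.1 hzero)⟩

/-- An odd continuous map to a smaller space vanishes on the sphere. -/
theorem exists_zero_sphere (h : finrank ℝ W < finrank ℝ V) {f : V → W}
    (hf : ContinuousOn f (sphere 0 1)) (hodd : ∀ x ∈ sphere (0 : V) 1, f (-x) = -f x) :
    ∃ x ∈ sphere (0 : V) 1, f x = 0 := by
  obtain ⟨x, hx, he⟩ := borsuk_ulam h hf
  rw [hodd x hx, eq_neg_iff_add_eq_zero, ← two_smul ℝ] at he
  exact ⟨x, hx, (smul_eq_zero.1 he).resolve_left two_ne_zero⟩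

/-- There is no odd continuous map to a sphere of smaller dimension. -/
theorem no_odd_map_to_sphere (h : finrank ℝ W < finrank ℝ V) {f : V → W}
    (hf : ContinuousOn f (sphere 0 1)) (hodd : ∀ x ∈ sphere (0 : V) 1, f (-x) = -f x)
    (hmap : MapsTo f (sphere 0 1) (sphere (0 : W) 1)) : False := by
  obtain ⟨x, hx, h0⟩ := exists_zero_sphere h hf hodd
  simpa [h0] using hmap hx

/-- A sphere does not embed in a space of its own dimension. -/
theorem not_injOn_sphere (h : finrank ℝ W < finrank ℝ V) {f : V → W}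
    (hf : ContinuousOn f (sphere 0 1)) : ¬ InjOn f (sphere 0 1) := by
  intro hinj
  obtain ⟨x, hx, he⟩ := borsuk_ulam h hf
  have := hinj hx (by simpa using hx) he
  have h2 : (2 : ℝ) • x = 0 := by
    rw [two_smul]
    exact eq_neg_iff_add_eq_zero.1 this
  rw [(smul_eq_zero.1 h2).resolve_left two_ne_zero] at hx
  simp at hx

/-- **Invariance of dimension.** -/
theorem finrank_le_of_injOn {U : Set V} (hU : IsOpen U) (hne : U.Nonempty) {f : V → W}
    (hf : ContinuousOn f U) (hinj : InjOn f U) : finrank ℝ V ≤ finrank ℝ W := by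
  by_contra! h
  obtain ⟨a, ha⟩ := hne
  obtain ⟨r, hr, hball⟩ := nhds_basis_closedBall.mem_iff.1 (hU.mem_nhds ha)
  have hmap : MapsTo (fun x : V => a + r • x) (sphere 0 1) U := fun x hx => hball (by
    rw [mem_sphere_zero_iff_norm] at hx
    simp [norm_smul, hx, abs_of_pos hr])
  refine not_injOn_sphere h (hf.comp (by fun_prop) hmap) fun x hx y hy he => ?_
  exact smul_right_injective V hr.ne' (add_left_cancel (hinj (hmap hx) (hmap hy) he))

/-- **The covering theorem of Lusternik and Schnirelmann**, for sets each open or closed. -/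
theorem lusternik_schnirelmann {k : ℕ} (hk : k + 1 ≤ finrank ℝ V) (A : Fin (k + 1) → Set V)
    (hA : ∀ i : Fin k, IsOpen (A i.castSucc) ∨ IsClosed (A i.castSucc))
    (hcov : sphere 0 1 ⊆ ⋃ i, A i) :
    ∃ i, ∃ x ∈ sphere (0 : V) 1, x ∈ A i ∧ -x ∈ A i := by
  by_contra! hcon
  let f : V → Fin k → ℝ := fun x i => infDist x (A i.castSucc ∩ sphere 0 1)
  have hfc : Continuous f := continuous_pi fun i => continuous_infDist_pt _
  obtain ⟨x, hx, he⟩ :=
    borsuk_ulam (by rw [finrank_fintype_fun_eq_card, Fintype.card_fin]; omega) hfc.continuousOn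
  have hnx : -x ∈ sphere (0 : V) 1 := by simpa using hx
  -- neither point lies in one of the first `k` sets
  have key : ∀ y ∈ sphere (0 : V) 1, f y = f (-y) → ∀ i : Fin k, y ∉ A i.castSucc := by
    intro y hy hey i hmem
    have h0 : infDist (-y) (A i.castSucc ∩ sphere 0 1) = 0 :=
      (congrFun hey i).symm.trans
        (infDist_zero_of_mem (s := A i.castSucc ∩ sphere 0 1) ⟨hmem, hy⟩)
    have hcl : -y ∈ closure (A i.castSucc ∩ sphere 0 1) :=
      (mem_closure_iff_infDist_zero (s := A i.castSucc ∩ sphere 0 1) ⟨y, hmem, hy⟩).2 h0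
    rcases hA i with ho | hc
    · obtain ⟨z, hz, hzA, hzS⟩ := mem_closure_iff.1 hcl {z : V | -z ∈ A i.castSucc}
        (ho.preimage continuous_neg) (show -(-y) ∈ A i.castSucc by rwa [neg_neg])
      exact hcon _ z hzS hzA hz
    · exact hcon _ y hy hmem (closure_minimal inter_subset_left hc hcl)
  have hlast : ∀ y ∈ sphere (0 : V) 1, f y = f (-y) → y ∈ A (Fin.last k) := by
    intro y hy hey
    obtain ⟨i, hi⟩ := mem_iUnion.1 (hcov hy)
    induction i using Fin.lastCases with
    | last => exact hi
    | cast i => exact absurd hi (key y hy hey i)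
  exact hcon _ x hx (hlast x hx he) (hlast (-x) hnx (by rw [neg_neg, he]))

/-- **Tucker's lemma**, metric form: an odd labelling of the sphere by `±1, …, ±m` with `m` below
the dimension gives two arbitrarily close points opposite labels. -/
theorem tucker {m : ℕ} (hm : m < finrank ℝ V) (L : V → Fin m × Bool)
    (hodd : ∀ x ∈ sphere (0 : V) 1, L (-x) = ((L x).1, !(L x).2)) {ε : ℝ} (hε : 0 < ε) :
    ∃ x ∈ sphere (0 : V) 1, ∃ y ∈ sphere (0 : V) 1,
      dist x y < ε ∧ (L x).1 = (L y).1 ∧ (L x).2 ≠ (L y).2 := by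
  let P : Fin m → Bool → Set V := fun a b => {x | x ∈ sphere (0 : V) 1 ∧ L x = (a, b)}
  let f : V → Fin m → ℝ := fun x a => infDist x (P a true) - infDist x (P a false)
  have hfc : Continuous f :=
    continuous_pi fun a => (continuous_infDist_pt _).sub (continuous_infDist_pt _)
  have hnegP : ∀ a b, (fun x : V => -x) '' P a b = P a (!b) := by
    intro a b
    ext x
    constructor
    · rintro ⟨y, ⟨hy, hL⟩, rfl⟩
      exact ⟨by simpa using hy, by rw [hodd y hy, hL]⟩
    · rintro ⟨hx, hL⟩
      exact ⟨-x, ⟨by simpa using hx, by rw [hodd x hx, hL, Bool.not_not]⟩, neg_neg x⟩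
  have hdist : ∀ a b x, infDist (-x) (P a (!b)) = infDist x (P a b) := fun a b x => by
    rw [← hnegP]
    exact infDist_image isometry_neg
  have hfodd : ∀ x ∈ sphere (0 : V) 1, f (-x) = -f x := by
    intro x _
    funext a
    have h1 := hdist a false x
    have h2 := hdist a true x
    rw [Bool.not_false] at h1
    rw [Bool.not_true] at h2
    simp only [f, h1, h2, Pi.neg_apply, neg_sub]
  obtain ⟨x, hx, h0⟩ :=
    exists_zero_sphere (by rwa [finrank_fintype_fun_eq_card, Fintype.card_fin]) hfc.continuousOn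
      hfodd
  obtain ⟨a, b, hab⟩ : ∃ a b, L x = (a, b) := ⟨_, _, rfl⟩
  have hmem : x ∈ P a b := ⟨hx, hab⟩
  have hne : (P a (!b)).Nonempty := ⟨-x, by rw [← hnegP]; exact mem_image_of_mem _ hmem⟩
  have hzero : infDist x (P a (!b)) = 0 := by
    have h1 : infDist x (P a true) = infDist x (P a false) := sub_eq_zero.1 (congrFun h0 a)
    have h2 := infDist_zero_of_mem hmem
    cases b
    · exact h1.trans h2
    · exact h1.symm.trans h2
  obtain ⟨y, ⟨hy, hL⟩, hd⟩ := (infDist_lt_iff hne).1 (hzero ▸ hε)
  exact ⟨x, hx, y, hy, hd, by rw [hab, hL], by rw [hab, hL]; cases b <;> simp⟩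

end Fermat.Agent.BorsukUlam
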